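-- Statement S05: the mod-p representation of the Frey curve is unramified at every prime q ≠ 2, p.
-- Team proof (lead: route + inertia API; helper7: kernel of reduction (T); helper3: reduction
-- lemmas, good/bad case; helper2/4/5/6: component walk (M1); helper1: models; helper9: contracts,
-- transfer along variable changes, assembly).
import Fermat.Statements.S05
import Fermat.Agent.Lib.S05.Assembly
import Fermat.Agent.Lib.S05.KernelTorsion
import Fermat.Agent.Lib.S05.GoodCaseProof
import Fermat.Agent.Lib.S05.BadCaseProof

set_option autoImplicit false
open WeierstrassCurve WeierstrassCurve.Affine WeierstrassCurve.Affine.Point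
open CuspForm ModularFormClass UpperHalfPlane
open FreyPackage

namespace Fermat.Agent.S05

open Fermat.Agent.Lib.S05

/-- helper7's theorem (T) in the packaged form used by the good/bad case proofs. -/
theorem kernelTorsionStatement : KernelTorsionStatement := by
  intro L Γ₀ _ _ _ v W h1 h3 h2 h4 h6 _ x y h hx n hn
  exact kt_smul_ne_zero v W h1 h3 h2 h4 h6 h hx n hn

theorem result (P : FreyPackage) {q : ℕ} (hq : q.Prime) (hq2 : q ≠ 2) (hqp : q ≠ P.p) : P.GaloisRepUnramifiedAt q :=
  h9_s05_of_contracts (goodCase_of_kernelTorsion kernelTorsionStatement)
    (badCase_of_kernelTorsion kernelTorsionStatement) P hq hq2 hqp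

end Fermat.Agent.S05
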