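import Fermat.Statements.S23
import Fermat.Agent.Lib.S23.Assembly
import Fermat.Agent.Lib.S23.AutFixed
import Fermat.Agent.Lib.S23.Echelon
import Fermat.Agent.Lib.S23.BoundedDenom
import Fermat.Agent.Lib.S23.QExp
import Fermat.Agent.Lib.S20.DictExplicit

set_option autoImplicit false
open CuspForm

namespace Fermat.Agent.S23

open Fermat.Agent.Lib.S23 Fermat.Agent.Lib.S20 in
theorem result (N : ℕ) [NeZero N] : CuspForm.HasIntegralStructure N 2 :=
  s23_of_contracts (h2_echelon h9_autFixed) (h9_boundedDenom N) (h5_autStable N)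
    (h8_cuspForm_finite N)

end Fermat.Agent.S23
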