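-- Statement S20: dim S₂(Γ₀(N)) equals the classical genus formula for X₀(N).
-- Proof: project S20 (Fermat/Agent/Lib/S20): function field M_N of X₀(N) over ℂ, Riemann–Hurwitz
-- for M_N / ℂ(j), Riemann–Roch à la Weil with a residue datum, and the dictionary
-- S₂(Γ₀(N)) ≃ L(div dj).
import Fermat.Statements.S20
import Fermat.Agent.Lib.S20.Final
import Fermat.Agent.Lib.S20.CanonicalDim
import Fermat.Agent.Lib.S20.Residue
import Fermat.Agent.Lib.S20.CoordG
import Fermat.Agent.Lib.S20.CFiniteM
import Fermat.Agent.Lib.S20.CInftyM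
import Fermat.Agent.Lib.S20.Dict

set_option autoImplicit false
open CuspForm

namespace Fermat.Agent.S20

open Fermat.Agent.Lib.S20 in
theorem result (N : ℕ) [NeZero N] :
    (Module.finrank ℂ (CuspForm (CongruenceSubgroup.Gamma0 N) 2) : ℚ) = ModularCurve.genusFormula N :=
  s20_of_contracts N h8_canonicalDim h8_residue (h2_coordG N) (h2_cFiniteG N) (h5_cInftyG N)
    (h3_dict N)

end Fermat.Agent.S20
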