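import Fermat.Statements.S21
import Fermat.Agent.Lib.S21.Defs
import Fermat.Agent.Lib.S21.Period
import Fermat.Agent.Lib.S21.ParabolicConj
import Fermat.Agent.Lib.S21.ParabolicDim
import Fermat.Agent.Lib.S21.CocycleProof
import Fermat.Agent.Lib.S21.Dim

set_option autoImplicit false
open ModularCurve

namespace Fermat.Agent.S21

open Fermat.Agent.Lib.S21 in
theorem result (N : ℕ) [NeZero N] :
    Function.Injective (ModularCurve.periodHomPair N)
      ∧ LinearMap.range (ModularCurve.periodHomPair N)
          = ModularCurve.Period.parabolicHoms ℂ (CongruenceSubgroup.Gamma0 N) ℂ :=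
  s21_of_contracts N (h1_periodStatement_of_conj N h7_parabolicConj)
    (h2_parabolicDim_of h2_cocycle N) (h8_dimStatement N)

end Fermat.Agent.S21
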