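-- Statement S49: the Deligne-Serre lifting lemma for lattice-realised formal eigensystems.
import Fermat.Statements.S49
import Fermat.Prelude.Def_CuspForm_HeckeAlgebra
import Fermat.Prelude.Def_CuspForm_IntegralStructure
import Fermat.Prelude.Thm_CuspForm_intLattice_fg
import Fermat.Prelude.Thm_CuspForm_mem_intLattice_of_mem_heckeAlgebra
import Fermat.Prelude.Thm_ModularFormClass_qCoeff_heckeT
import Fermat.Prelude.Thm_ModularFormClass_qCoeff_heckeU
import Fermat.Prelude.Thm_CongruenceSubgroup_one_mem_strictPeriods_Gamma0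

set_option autoImplicit false
open CuspForm EisensteinWeightOne CongruenceSubgroup ModularFormClass UpperHalfPlane
open FLT FLT.AbstractIntegralStructure

namespace Fermat.Agent.S49

section LemmaA

variable {K : Type*} [Field K] [IsAlgClosed K] {V : Type*} [AddCommGroup V] [Module K V]
  [FiniteDimensional K V] {T : Type*} [CommRing T] (ρ : T →+* Module.End K V)

/-- Stable subspaces whose annihilator is contained in the prime `𝔫`. -/
def GoodSub (𝔫 : Ideal T) (W : Submodule K V) : Prop :=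
  (∀ t : T, ∀ x ∈ W, ρ t x ∈ W) ∧ (∀ t : T, (∀ x ∈ W, ρ t x = 0) → t ∈ 𝔫)

theorem exists_eigenvector_of_prime (𝔫 : Ideal T) [h𝔫 : 𝔫.IsPrime]
    (hker : ∀ t : T, ρ t = 0 → t ∈ 𝔫) :
    ∃ (w : V) (θ : T → K), w ≠ 0 ∧ (∀ t, ρ t w = θ t • w) ∧ (∀ t, θ t = 0 → t ∈ 𝔫) := by
  classical
  -- the set of good subspaces is nonempty
  have htop : GoodSub ρ 𝔫 (⊤ : Submodule K V) := by
    refine ⟨fun _ _ _ => Submodule.mem_top, fun t ht => hker t ?_⟩
    ext x
    simpa using ht x Submodule.mem_top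
  obtain ⟨W, hWgood, hWmin⟩ := WellFounded.has_min (wellFounded_lt (α := Submodule K V))
    {W | GoodSub ρ 𝔫 W} ⟨⊤, htop⟩
  obtain ⟨hstab, hann⟩ := hWgood
  -- W is nonzero
  have hWne : W ≠ ⊥ := by
    rintro rfl
    have : (1 : T) ∈ 𝔫 := hann 1 (fun x hx => by
      rw [Submodule.mem_bot] at hx; subst hx; simp)
    exact h𝔫.ne_top ((Ideal.eq_top_iff_one _).mpr this)
  -- every t acts as a scalar on W
  have hscalar : ∀ t : T, ∃ c : K, ∀ x ∈ W, ρ t x = c • x := by
    intro t
    have : Nontrivial W := Submodule.nontrivial_iff_ne_bot.mpr hWne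
    let g : Module.End K W := (ρ t).restrict (hstab t)
    obtain ⟨μ, hμ⟩ := Module.End.exists_eigenvalue g
    obtain ⟨v, hv⟩ := hμ.exists_hasEigenvector
    have hv0 : (v : V) ≠ 0 := fun h => hv.2 (Subtype.ext h)
    have hgv : ρ t (v : V) = μ • (v : V) := by
      have := hv.apply_eq_smul
      have h2 := congrArg Subtype.val this
      simpa [g] using h2
    refine ⟨μ, ?_⟩
    -- the two subspaces
    let D : Module.End K V := ρ t - μ • (1 : Module.End K V)
    have hD : ∀ x, D x = ρ t x - μ • x := fun x => by simp [D]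
    have hcomm : ∀ s : T, ∀ x, ρ s (D x) = D (ρ s x) := by
      intro s x
      have h1 : ρ s (ρ t x) = ρ t (ρ s x) := by
        have : ρ s * ρ t = ρ t * ρ s := by rw [← map_mul, ← map_mul, mul_comm]
        exact LinearMap.congr_fun this x
      rw [hD, hD, map_sub, map_smul, h1]
    let W₁ : Submodule K V := W ⊓ LinearMap.ker D
    let W₂ : Submodule K V := W.map D
    have hW₂le : W₂ ≤ W := by
      rintro y ⟨x, hx, rfl⟩
      rw [hD]
      exact W.sub_mem (hstab t x hx) (W.smul_mem μ hx)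
    have hW₁le : W₁ ≤ W := inf_le_left
    have hstab₁ : ∀ s : T, ∀ x ∈ W₁, ρ s x ∈ W₁ := by
      intro s x hx
      have hx' := Submodule.mem_inf.mp hx
      refine Submodule.mem_inf.mpr ⟨hstab s x hx'.1, ?_⟩
      rw [LinearMap.mem_ker, ← hcomm, LinearMap.mem_ker.mp hx'.2, map_zero]
    have hstab₂ : ∀ s : T, ∀ x ∈ W₂, ρ s x ∈ W₂ := by
      rintro s y ⟨x, hx, rfl⟩
      exact ⟨ρ s x, hstab s x hx, (hcomm s x).symm⟩
    have hor : (∀ s : T, (∀ x ∈ W₁, ρ s x = 0) → s ∈ 𝔫) ∨ (∀ s : T, (∀ x ∈ W₂, ρ s x = 0) → s ∈ 𝔫) := by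
      by_contra hcon
      push Not at hcon
      obtain ⟨⟨s₁, hs₁, hs₁n⟩, ⟨s₂, hs₂, hs₂n⟩⟩ := hcon
      have : s₁ * s₂ ∈ 𝔫 := by
        apply hann
        intro x hx
        have hx2 : D (ρ s₂ x) = 0 := by
          rw [← hcomm]; exact hs₂ _ ⟨x, hx, rfl⟩
        have hx1 : ρ s₂ x ∈ W₁ := Submodule.mem_inf.mpr ⟨hstab s₂ x hx, LinearMap.mem_ker.mpr hx2⟩
        rw [map_mul]
        exact hs₁ _ hx1
      rcases h𝔫.mem_or_mem this with h | h
      · exact hs₁n h
      · exact hs₂n h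
    rcases hor with h1 | h2
    · -- W₁ is good hence equals W
      have hW₁ : W₁ = W := by
        by_contra hne
        exact hWmin W₁ ⟨hstab₁, h1⟩ (lt_of_le_of_ne hW₁le hne)
      intro x hx
      have : x ∈ W₁ := by rw [hW₁]; exact hx
      have h3 := LinearMap.mem_ker.mp (Submodule.mem_inf.mp this).2
      rw [hD, sub_eq_zero] at h3
      exact h3
    · -- W₂ is good hence equals W, contradiction with eigenvector
      exfalso
      have hW₂ : W₂ = W := by
        by_contra hne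
        exact hWmin W₂ ⟨hstab₂, h2⟩ (lt_of_le_of_ne hW₂le hne)
      let g' : Module.End K W := g - μ • (1 : Module.End K W)
      have hsurj : Function.Surjective g' := by
        intro y
        have hy : (y : V) ∈ W₂ := by rw [hW₂]; exact y.2
        obtain ⟨x, hx, hxy⟩ := hy
        refine ⟨⟨x, hx⟩, Subtype.ext ?_⟩
        rw [← hxy, hD]
        simp [g', g]
      have hinj : Function.Injective g' := LinearMap.injective_iff_surjective.mpr hsurj
      have : g' v = g' 0 := by
        rw [map_zero]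
        apply Subtype.ext
        simp [g', g, hgv]
      exact hv.2 (hinj this)
  choose θ hθ using hscalar
  obtain ⟨w, hwW, hw0⟩ := (Submodule.ne_bot_iff W).mp hWne
  refine ⟨w, θ, hw0, fun t => hθ t w hwW, fun t ht => hann t fun x hx => ?_⟩
  rw [hθ t x hx, ht, zero_smul]

theorem exists_eigenchar_of_prime (𝔫 : Ideal T) [h𝔫 : 𝔫.IsPrime]
    (hker : ∀ t : T, ρ t = 0 → t ∈ 𝔫) :
    ∃ (w : V) (θ : T →+* K), w ≠ 0 ∧ (∀ t, ρ t w = θ t • w) ∧ (∀ t, θ t = 0 → t ∈ 𝔫) := by
  obtain ⟨w, θ, hw, hθ, hθker⟩ := exists_eigenvector_of_prime ρ 𝔫 hker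
  have hinj : ∀ c d : K, c • w = d • w → c = d := fun c d h => smul_left_injective K hw h
  refine ⟨w, { toFun := θ, map_one' := ?_, map_mul' := ?_, map_zero' := ?_, map_add' := ?_ }, hw, hθ, hθker⟩
  · apply hinj
    rw [← hθ, map_one, one_smul]
    rfl
  · intro s t
    apply hinj
    rw [← hθ, map_mul, Module.End.mul_apply, hθ t, map_smul, hθ s, smul_smul, mul_comm]
  · apply hinj
    rw [← hθ, map_zero, zero_smul]
    rfl
  · intro s t
    apply hinj
    rw [← hθ, map_add, LinearMap.add_apply, hθ s, hθ t, add_smul]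

end LemmaA


section Seq

variable {R : Type*} [CommRing R]

/-- multiplicativity of a sequence satisfying Hecke relations at all primes -/
theorem seq_mul_of_coprime (b : ℕ → R) (ε : ℕ → R) (h1 : b 1 = 1)
    (hrel : ∀ p : ℕ, p.Prime → ∀ n : ℕ,
      b (n * p) + (if p ∣ n then ε p * b (n / p) else 0) = b p * b n) :
    ∀ m n : ℕ, m.Coprime n → b (m * n) = b m * b n := by
  intro m
  induction m using Nat.strong_induction_on with
  | _ m ih =>
    intro n hmn
    rcases Nat.lt_or_ge m 2 with hm | hm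
    · interval_cases m
      · have : n = 1 := by simpa using hmn
        subst this
        simp [h1]
      · simp [h1]
    · -- m ≥ 2
      have hm1 : m ≠ 1 := by omega
      set p := m.minFac with hp
      have hpp : p.Prime := Nat.minFac_prime hm1
      obtain ⟨m', hm'⟩ : p ∣ m := Nat.minFac_dvd m
      have hm'eq : m = m' * p := by rw [hm', mul_comm]
      have hm'pos : 0 < m' := by
        rcases Nat.eq_zero_or_pos m' with h0 | h0
        · subst h0; omega
        · exact h0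
      have hm'lt : m' < m := by
        rw [hm'eq]
        have := hpp.two_le
        nlinarith
      have hcop' : m'.Coprime n := Nat.Coprime.coprime_dvd_left ⟨p, hm'eq⟩ hmn
      have hpn : ¬ p ∣ n := by
        intro hdvd
        have : p ∣ Nat.gcd m n := Nat.dvd_gcd (Nat.minFac_dvd m) hdvd
        rw [hmn] at this
        exact hpp.one_lt.ne' (Nat.dvd_one.mp this)
      have e1 : m * n = (m' * n) * p := by rw [hm'eq]; ring
      have r1 := hrel p hpp (m' * n)
      have r2 := hrel p hpp m'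
      have ih1 := ih m' hm'lt n hcop'
      by_cases hpm' : p ∣ m'
      · obtain ⟨m'', hm''⟩ := hpm'
        have hm''eq : m' = m'' * p := by rw [hm'', mul_comm]
        have hm''lt : m'' < m := by
          have := hpp.two_le
          have : m'' < m' := by
            rw [hm''eq]
            have h0 : 0 < m'' := by
              rcases Nat.eq_zero_or_pos m'' with h0 | h0
              · subst h0; omega
              · exact h0
            nlinarith
          omega
        have hcop'' : m''.Coprime n := Nat.Coprime.coprime_dvd_left ⟨p, hm''eq⟩ hcop'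
        have ih2 := ih m'' hm''lt n hcop''
        have hd1 : p ∣ m' * n := Dvd.dvd.mul_right ⟨m'', hm''⟩ n
        have hdiv1 : m' * n / p = m'' * n := by
          rw [hm''eq]
          rw [show m'' * p * n = p * (m'' * n) by ring]
          exact Nat.mul_div_cancel_left _ hpp.pos
        have hdiv2 : m' / p = m'' := by
          rw [hm''eq]; exact Nat.mul_div_cancel _ hpp.pos
        rw [if_pos hd1, hdiv1, ih1, ih2] at r1
        rw [if_pos ⟨m'', hm''⟩, hdiv2] at r2
        rw [e1, hm'eq]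
        linear_combination r1 - b n * r2
      · have hd1 : ¬ p ∣ m' * n := by
          intro hd
          rcases (Nat.Prime.dvd_mul hpp).mp hd with h | h
          · exact hpm' h
          · exact hpn h
        rw [if_neg hd1, ih1] at r1
        rw [if_neg hpm'] at r2
        rw [e1, hm'eq]
        linear_combination r1 - b n * r2

/-- if the first coefficient vanishes then everything vanishes -/
theorem seq_eq_zero_of_one (c : ℕ → R) (ε τ : ℕ → R) (h1 : c 1 = 0)
    (hrel : ∀ p : ℕ, p.Prime → ∀ n : ℕ,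
      c (n * p) + (if p ∣ n then ε p * c (n / p) else 0) = τ p * c n) :
    ∀ n : ℕ, 1 ≤ n → c n = 0 := by
  intro n
  induction n using Nat.strong_induction_on with
  | _ n ih =>
    intro hn
    rcases Nat.lt_or_ge n 2 with hn2 | hn2
    · have : n = 1 := by omega
      subst this; exact h1
    · have hn1 : n ≠ 1 := by omega
      set p := n.minFac with hp
      have hpp : p.Prime := Nat.minFac_prime hn1
      obtain ⟨m, hm⟩ : p ∣ n := Nat.minFac_dvd n
      have hmeq : n = m * p := by rw [hm, mul_comm]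
      have hmpos : 0 < m := by
        rcases Nat.eq_zero_or_pos m with h0 | h0
        · subst h0; omega
        · exact h0
      have hmlt : m < n := by
        rw [hmeq]; have := hpp.two_le; nlinarith
      have r := hrel p hpp m
      rw [ih m hmlt hmpos, mul_zero] at r
      by_cases hpm : p ∣ m
      · obtain ⟨m', hm'⟩ := hpm
        have hm'pos : 0 < m' := by
          rcases Nat.eq_zero_or_pos m' with h0 | h0
          · subst h0; omega
          · exact h0
        have hdiv : m / p = m' := by rw [hm']; exact Nat.mul_div_cancel_left _ hpp.pos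
        have hm'lt : m' < n := by
          have : m' ≤ m := by rw [hm']; exact Nat.le_mul_of_pos_left _ hpp.pos
          omega
        rw [if_pos ⟨m', hm'⟩, hdiv, ih m' hm'lt hm'pos, mul_zero, add_zero] at r
        rw [hmeq]; exact r
      · rw [if_neg hpm, add_zero] at r
        rw [hmeq]; exact r

end Seq


variable {N : ℕ}

theorem one_mem_sp : (1 : ℝ) ∈ ((Gamma0 N : Subgroup (Matrix.GeneralLinearGroup (Fin 2) ℝ))).strictPeriods :=
  CongruenceSubgroup.one_mem_strictPeriods_Gamma0 N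

theorem qCoeff_add (f g : CuspForm (Gamma0 N) 2) (n : ℕ) :
    qCoeff (f + g : CuspForm (Gamma0 N) 2) n = qCoeff f n + qCoeff g n := by
  unfold qCoeff
  rw [FunLike.coe_add, ModularForm.qExpansion_add one_pos one_mem_sp f g]
  simp

theorem qCoeff_smul (c : ℂ) (f : CuspForm (Gamma0 N) 2) (n : ℕ) :
    qCoeff (c • f : CuspForm (Gamma0 N) 2) n = c * qCoeff f n := by
  unfold qCoeff
  rw [FunLike.coe_smul, ModularForm.qExpansion_smul one_pos one_mem_sp c f]
  simp

theorem qCoeff_zero_fun (n : ℕ) : qCoeff ((0 : CuspForm (Gamma0 N) 2)) n = 0 := by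
  have := qCoeff_smul (0 : ℂ) (0 : CuspForm (Gamma0 N) 2) n
  simpa using this

theorem qCoeff_sub (f g : CuspForm (Gamma0 N) 2) (n : ℕ) :
    qCoeff (f - g : CuspForm (Gamma0 N) 2) n = qCoeff f n - qCoeff g n := by
  have h1 : f - g = f + (-1 : ℂ) • g := by simp [sub_eq_add_neg]
  rw [h1, qCoeff_add, qCoeff_smul]; ring

theorem qCoeff_zsmul (z : ℤ) (f : CuspForm (Gamma0 N) 2) (n : ℕ) :
    qCoeff (z • f : CuspForm (Gamma0 N) 2) n = z * qCoeff f n := by
  have h1 : z • f = (z : ℂ) • f := (Int.cast_smul_eq_zsmul ℂ z f).symm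
  rw [h1, qCoeff_smul]

theorem qCoeff_zero_eq (f : CuspForm (Gamma0 N) 2) : qCoeff f 0 = 0 := by
  unfold qCoeff
  exact CuspFormClass.qExpansion_coeff_zero f one_pos one_mem_sp

theorem eq_zero_of_qCoeff (f : CuspForm (Gamma0 N) 2) (h : ∀ n, qCoeff f n = 0) : f = 0 := by
  have hcusp : Fact (IsCusp OnePoint.infty (Gamma0 N : Subgroup (Matrix.GeneralLinearGroup (Fin 2) ℝ))) :=
    ⟨Subgroup.isCusp_of_mem_strictPeriods one_pos one_mem_sp⟩
  have h1 : qExpansion 1 f = 0 := by
    ext n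
    simpa [qCoeff] using h n
  have h2 := (UpperHalfPlane.qExpansion_eq_zero_iff (h := 1) one_pos
    (SlashInvariantFormClass.periodic_comp_ofComplex f one_mem_sp)
    (ModularFormClass.holo f) (ModularFormClass.bdd_at_infty f)).mp h1
  exact DFunLike.coe_injective h2

theorem qCoeff_heckeTLin [NeZero N] {p : ℕ} (hp : p.Prime) (hpN : ¬ p ∣ N) (f : CuspForm (Gamma0 N) 2) (n : ℕ) :
    qCoeff (CuspForm.heckeTLin 2 hp hpN f) n =
      qCoeff f (n * p) + if p ∣ n then (p : ℂ) * qCoeff f (n / p) else 0 := by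
  rw [CuspForm.coe_heckeTLin_apply, ModularFormClass.qCoeff_heckeT f one_mem_sp hp.ne_zero n,
    ModularForm.coeffHeckeT_apply]
  norm_num

theorem qCoeff_heckeULin [NeZero N] {p : ℕ} (hp : p.Prime) (hpN : p ∣ N) (f : CuspForm (Gamma0 N) 2) (n : ℕ) :
    qCoeff (CuspForm.heckeULin 2 hpN f) n = qCoeff f (n * p) := by
  rw [CuspForm.coe_heckeULin_apply, ModularFormClass.qCoeff_heckeU f one_mem_sp hp.ne_zero n,
    ModularForm.coeffHeckeU_apply]

/-- elements of the integral lattice have integral coefficients -/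
theorem int_coeff_of_mem_intLattice {f : CuspForm (Gamma0 N) 2} (hf : f ∈ CuspForm.intLattice N 2) :
    ∀ n : ℕ, ∃ m : ℤ, qCoeff f n = (m : ℂ) := by
  unfold CuspForm.intLattice at hf
  induction hf using Submodule.span_induction with
  | mem x hx => exact hx
  | zero => intro n; exact ⟨0, by rw [qCoeff_zero_fun]; simp⟩
  | add x y _ _ hx hy =>
    intro n
    obtain ⟨a, ha⟩ := hx n
    obtain ⟨b, hb⟩ := hy n
    exact ⟨a + b, by rw [qCoeff_add, ha, hb]; push_cast; ring⟩
  | smul z x _ hx =>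
    intro n
    obtain ⟨a, ha⟩ := hx n
    exact ⟨z * a, by rw [qCoeff_zsmul, ha]; push_cast; ring⟩

theorem mem_intLattice_of_int_coeff {f : CuspForm (Gamma0 N) 2}
    (hf : ∀ n : ℕ, ∃ m : ℤ, qCoeff f n = (m : ℂ)) : f ∈ CuspForm.intLattice N 2 :=
  Submodule.subset_span hf

theorem qIntegralSet_subset_intLattice :
    CuspForm.qIntegralSet N ⊆ (CuspForm.intLattice N 2 : Set (CuspForm (Gamma0 N) 2)) := by
  intro f hf
  apply mem_intLattice_of_int_coeff
  intro n
  obtain ⟨m, hm⟩ := Subring.mem_bot.mp (hf n)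
  exact ⟨m, hm.symm⟩

theorem finiteDimensional_of_hasIntegralBasis [NeZero N] (h : CuspForm.HasIntegralBasis N) :
    FiniteDimensional ℂ (CuspForm (Gamma0 N) 2) := by
  obtain ⟨S, hS⟩ := CuspForm.intLattice_fg N 2
  refine Module.finite_def.mpr ⟨S, ?_⟩
  rw [eq_top_iff, ← h]
  apply Submodule.span_le.mpr
  intro f hf
  have h1 : f ∈ CuspForm.intLattice N 2 := qIntegralSet_subset_intLattice hf
  rw [← hS] at h1
  exact Submodule.span_le_restrictScalars ℤ ℂ _ h1


theorem exists_normalized [NeZero N] (w : CuspForm (Gamma0 N) 2) (hw : w ≠ 0) (τ : ℕ → ℂ)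
    (hT : ∀ p (hp : p.Prime) (hpN : ¬ p ∣ N), CuspForm.heckeTLin 2 hp hpN w = τ p • w)
    (hU : ∀ p (_ : p.Prime) (hpN : p ∣ N), CuspForm.heckeULin 2 hpN w = τ p • w) :
    ∃ f : CuspForm (Gamma0 N) 2, f.IsNormalizedEigenform ∧ ∀ p, p.Prime → qCoeff f p = τ p := by
  classical
  set c : ℕ → ℂ := fun n => qCoeff w n with hc
  set ε : ℕ → ℂ := fun p => if p ∣ N then 0 else (p : ℂ) with hε
  have hrel : ∀ p : ℕ, p.Prime → ∀ n : ℕ,
      c (n * p) + (if p ∣ n then ε p * c (n / p) else 0) = τ p * c n := by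
    intro p hp n
    by_cases hpN : p ∣ N
    · have h1 := congrArg (fun g : CuspForm (Gamma0 N) 2 => qCoeff g n) (hU p hp hpN)
      simp only [qCoeff_heckeULin hp hpN, qCoeff_smul] at h1
      simp only [hε, hc, if_pos hpN, zero_mul, ite_self, add_zero]
      exact h1
    · have h1 := congrArg (fun g : CuspForm (Gamma0 N) 2 => qCoeff g n) (hT p hp hpN)
      simp only [qCoeff_heckeTLin hp hpN, qCoeff_smul] at h1
      simp only [hε, hc, if_neg hpN]
      exact h1
  have hc1 : c 1 ≠ 0 := by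
    intro h0
    apply hw
    apply eq_zero_of_qCoeff
    intro n
    rcases Nat.eq_zero_or_pos n with rfl | hn
    · exact qCoeff_zero_eq w
    · exact seq_eq_zero_of_one c ε τ h0 hrel n hn
  have hτ : ∀ p : ℕ, p.Prime → c p = τ p * c 1 := by
    intro p hp
    have := hrel p hp 1
    rw [one_mul, if_neg (by simpa using hp.one_lt.ne')] at this
    simpa using this
  set f : CuspForm (Gamma0 N) 2 := (c 1)⁻¹ • w with hf
  have hb : ∀ n, qCoeff f n = (c 1)⁻¹ * c n := fun n => by rw [hf, qCoeff_smul]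
  have hbp : ∀ p : ℕ, p.Prime → qCoeff f p = τ p := by
    intro p hp
    rw [hb, hτ p hp]
    field_simp
  have hb1 : qCoeff f 1 = 1 := by rw [hb]; field_simp
  have hrelb : ∀ p : ℕ, p.Prime → ∀ n : ℕ,
      qCoeff f (n * p) + (if p ∣ n then ε p * qCoeff f (n / p) else 0) = qCoeff f p * qCoeff f n := by
    intro p hp n
    rw [hbp p hp, hb, hb, hb]
    have := hrel p hp n
    split_ifs at this ⊢ with hd
    · linear_combination (c 1)⁻¹ * this
    · linear_combination (c 1)⁻¹ * this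
  refine ⟨f, ⟨hb1, seq_mul_of_coprime (fun n => qCoeff f n) ε hb1 hrelb, ?_, ?_⟩, hbp⟩
  · intro p r hp hpN
    have := hrelb p hp (p ^ (r + 1))
    have hd : p ∣ p ^ (r + 1) := dvd_pow_self p (by omega)
    have hdiv : p ^ (r + 1) / p = p ^ r := by
      rw [pow_succ]; exact Nat.mul_div_cancel _ hp.pos
    rw [if_pos hd, hdiv, ← pow_succ] at this
    simp only [hε, if_neg hpN] at this
    rw [show r + 2 = r + 1 + 1 by ring]
    linear_combination this
  · intro p r hp hpN
    have := hrelb p hp (p ^ (r + 1))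
    have hd : p ∣ p ^ (r + 1) := dvd_pow_self p (by omega)
    rw [if_pos hd, ← pow_succ] at this
    simp only [hε, if_pos hpN, zero_mul, add_zero] at this
    rw [show r + 2 = r + 1 + 1 by ring]
    exact this


theorem e1Chi3In_int_eq :
    e1Chi3In ℤ = 1 + PowerSeries.C (3 : ℤ) *
      PowerSeries.mk (fun n => if n = 0 then 0 else 2 * sigmaChi n) := by
  ext n
  simp only [e1Chi3In, e1Chi3, PowerSeries.coeff_map, PowerSeries.coeff_mk, map_add,
    PowerSeries.coeff_one, PowerSeries.coeff_C_mul, Int.coe_castRingHom, Int.cast_id]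
  split_ifs <;> simp
  ring

theorem bridgeProduct_coeff (a : ℕ → ℤ) (n : ℕ) :
    (3 : ℤ) ∣ (bridgeProduct a).coeff n - a n := by
  unfold bridgeProduct
  rw [e1Chi3In_int_eq, mul_add, mul_one, mul_left_comm, map_add, PowerSeries.coeff_mk,
    PowerSeries.coeff_C_mul]
  rw [add_sub_cancel_left]
  exact dvd_mul_right _ _

theorem chiNegThree_modEq (ℓ : ℕ) : ((ℓ : ℤ) : ZMod 3) = ((chiNegThree ℓ : ℤ) : ZMod 3) := by
  rw [Int.cast_natCast, ← ZMod.natCast_mod ℓ 3]
  unfold chiNegThree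
  have hlt : ℓ % 3 < 3 := Nat.mod_lt _ (by norm_num)
  interval_cases h : ℓ % 3 <;> simp <;> decide


section Hecke

variable [NeZero N]

/-- the Hecke algebra -/
abbrev HA (N : ℕ) [NeZero N] := CuspForm.heckeAlgebra N 2 (∅ : Set ℕ)

/-- the tautological representation of the Hecke algebra -/
noncomputable def rho : HA N →+* Module.End ℂ (CuspForm (Gamma0 N) 2) where
  toFun t := t.1
  map_one' := rfl
  map_mul' _ _ := rfl
  map_zero' := rfl
  map_add' _ _ := rfl

theorem rho_apply (t : HA N) : rho t = (t : Module.End ℂ (CuspForm (Gamma0 N) 2)) := rfl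

theorem rho_mem_intLattice (t : HA N) {f : CuspForm (Gamma0 N) 2}
    (hf : f ∈ CuspForm.intLattice N 2) : rho t f ∈ CuspForm.intLattice N 2 :=
  CuspForm.mem_intLattice_of_mem_heckeAlgebra (by norm_num) t.2 hf

/-- all q-coefficients are integers divisible by 3 -/
def Div3 (g : CuspForm (Gamma0 N) 2) : Prop := ∀ n : ℕ, ∃ m : ℤ, qCoeff g n = 3 * (m : ℂ)

theorem div3_rho (t : HA N) {g : CuspForm (Gamma0 N) 2} (hg : Div3 g) : Div3 (rho t g) := by
  set g₁ : CuspForm (Gamma0 N) 2 := (3⁻¹ : ℂ) • g with hg₁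
  have h1 : g₁ ∈ CuspForm.intLattice N 2 := by
    apply mem_intLattice_of_int_coeff
    intro n
    obtain ⟨m, hm⟩ := hg n
    exact ⟨m, by rw [hg₁, qCoeff_smul, hm]; field_simp⟩
  have h2 : g = (3 : ℂ) • g₁ := by
    rw [hg₁, smul_smul]; norm_num
  intro n
  obtain ⟨m, hm⟩ := int_coeff_of_mem_intLattice (rho_mem_intLattice t h1) n
  exact ⟨m, by rw [h2, map_smul, qCoeff_smul, hm]⟩

/-- the ideal of Hecke operators sending `f₀` into `3 L` -/
def m0 (f₀ : CuspForm (Gamma0 N) 2) : Ideal (HA N) where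
  carrier := {t | Div3 (rho t f₀)}
  add_mem' := by
    intro s t hs ht n
    obtain ⟨a, ha⟩ := hs n
    obtain ⟨b, hb⟩ := ht n
    refine ⟨a + b, ?_⟩
    rw [map_add, LinearMap.add_apply, qCoeff_add, ha, hb]
    push_cast; ring
  zero_mem' := by
    intro n
    refine ⟨0, ?_⟩
    rw [map_zero, LinearMap.zero_apply, qCoeff_zero_fun]
    simp
  smul_mem' := by
    intro s t ht
    show Div3 (rho (s * t) f₀)
    rw [map_mul, Module.End.mul_apply]
    exact div3_rho s ht

theorem mem_m0 (f₀ : CuspForm (Gamma0 N) 2) (t : HA N) : t ∈ m0 f₀ ↔ Div3 (rho t f₀) := Iff.rfl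


/-- restriction to the lattice -/
noncomputable def resLattice : HA N →+* Module.End ℤ (CuspForm.intLattice N 2) where
  toFun t := ((rho t).restrictScalars ℤ).restrict (fun _ hx => rho_mem_intLattice t hx)
  map_one' := by ext x; rfl
  map_mul' _ _ := by ext x; rfl
  map_zero' := by ext x; rfl
  map_add' _ _ := by ext x; rfl

theorem resLattice_apply (t : HA N) (x : CuspForm.intLattice N 2) :
    ((resLattice t x : CuspForm.intLattice N 2) : CuspForm (Gamma0 N) 2) = rho t x := rfl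

theorem resLattice_injective (h : CuspForm.HasIntegralBasis N) :
    Function.Injective (resLattice (N := N)) := by
  rw [injective_iff_map_eq_zero]
  intro t ht
  have h1 : rho t = 0 := by
    apply LinearMap.ext_on h
    intro x hx
    have hx' : x ∈ CuspForm.intLattice N 2 := qIntegralSet_subset_intLattice hx
    have := resLattice_apply t ⟨x, hx'⟩
    rw [ht] at this
    simpa using this.symm
  exact Subtype.ext h1

theorem isIntegralElem_of_hasIntegralBasis (h : CuspForm.HasIntegralBasis N) (t : HA N) :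
    ∃ p : Polynomial ℤ, p.Monic ∧ Polynomial.eval₂ (Int.castRingHom (HA N)) t p = 0 := by
  have : Module.Finite ℤ (CuspForm.intLattice N 2) :=
    Module.Finite.iff_fg.mpr (CuspForm.intLattice_fg N 2)
  obtain ⟨p, hp, hpe⟩ := Algebra.IsIntegral.isIntegral (R := ℤ) (resLattice t)
  refine ⟨p, hp, resLattice_injective h ?_⟩
  have hcomp : (resLattice (N := N)).comp (Int.castRingHom (HA N)) =
      algebraMap ℤ (Module.End ℤ (CuspForm.intLattice N 2)) := Subsingleton.elim _ _
  rw [Polynomial.hom_eval₂, map_zero, hcomp]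
  exact hpe

theorem isIntegral_of_ringHom (h : CuspForm.HasIntegralBasis N) (θ : HA N →+* ℂ) (t : HA N) :
    IsIntegral ℤ (θ t) := by
  obtain ⟨p, hp, hpe⟩ := isIntegralElem_of_hasIntegralBasis h t
  refine ⟨p, hp, ?_⟩
  have hcomp : θ.comp (Int.castRingHom (HA N)) = algebraMap ℤ ℂ := Subsingleton.elim _ _
  have := congrArg θ hpe
  rw [Polynomial.hom_eval₂, map_zero, hcomp] at this
  exact this


/-- The Hecke operator `T_ℓ` as an element of the Hecke algebra -/
noncomputable def TT {ℓ : ℕ} (hℓ : ℓ.Prime) (hℓN : ¬ ℓ ∣ N) : HA N :=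
  CuspForm.heckeAlgebra.T hℓ hℓN (Set.notMem_empty ℓ)

/-- The Hecke operator `U_q` as an element of the Hecke algebra -/
noncomputable def UU {q : ℕ} (hq : q.Prime) (hqN : q ∣ N) : HA N :=
  CuspForm.heckeAlgebra.U hq hqN (Set.notMem_empty q)

theorem rho_TT {ℓ : ℕ} (hℓ : ℓ.Prime) (hℓN : ¬ ℓ ∣ N) : rho (TT hℓ hℓN) = CuspForm.heckeTLin 2 hℓ hℓN := rfl

theorem rho_UU {q : ℕ} (hq : q.Prime) (hqN : q ∣ N) : rho (UU hq hqN) = CuspForm.heckeULin 2 hqN := rfl

theorem TT_sub_mem_m0 {a : ℕ → ℤ}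
    (heig : FormalHecke.IsEigensystem
      (fun ℓ => if ℓ ∣ N then 0 else ((chiNegThree ℓ : ℤ) : ℤ)) a)
    (f₀ : CuspForm (Gamma0 N) 2) (af : ℕ → ℤ) (haf : ∀ n, (af n : ℂ) = qCoeff f₀ n)
    (hcong : ∀ n, (3 : ℤ) ∣ af n - (bridgeProduct a).coeff n)
    {ℓ : ℕ} (hℓ : ℓ.Prime) (hℓN : ¬ ℓ ∣ N) :
    TT hℓ hℓN - ((a ℓ : ℤ) : HA N) ∈ m0 f₀ := by
  rw [mem_m0]
  intro n
  have hA : ∀ n, ((af n : ℤ) : ZMod 3) = ((a n : ℤ) : ZMod 3) := by
    intro n
    have h1 := (ZMod.intCast_zmod_eq_zero_iff_dvd _ 3).mpr (hcong n)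
    have h2 := (ZMod.intCast_zmod_eq_zero_iff_dvd _ 3).mpr (bridgeProduct_coeff a n)
    push_cast at h1 h2
    linear_combination h1 + h2
  have hrel := heig.2 ℓ hℓ n
  simp only [if_neg hℓN] at hrel
  set Z : ℤ := af (n * ℓ) + (if ℓ ∣ n then (ℓ : ℤ) * af (n / ℓ) else 0) - a ℓ * af n with hZ
  have hZ3 : ((3 : ℕ) : ℤ) ∣ Z := by
    rw [← ZMod.intCast_zmod_eq_zero_iff_dvd]
    have hrel' := congrArg (fun z : ℤ => (z : ZMod 3)) hrel
    beta_reduce at hrel'
    rw [hZ]
    by_cases hd : ℓ ∣ n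
    · rw [if_pos hd] at hrel' ⊢
      push_cast at hrel' ⊢
      rw [hA, hA, hA, ← Int.cast_natCast (R := ZMod 3) ℓ, chiNegThree_modEq, mul_comm n ℓ]
      linear_combination hrel'
    · rw [if_neg hd] at hrel' ⊢
      push_cast at hrel' ⊢
      rw [hA, hA, mul_comm n ℓ]
      linear_combination hrel'
  obtain ⟨m, hm⟩ := hZ3
  refine ⟨m, ?_⟩
  rw [map_sub, map_intCast, LinearMap.sub_apply, qCoeff_sub, rho_TT, qCoeff_heckeTLin,
    Module.End.intCast_apply, qCoeff_zsmul]
  simp only [← haf]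
  have : ((Z : ℤ) : ℂ) = 3 * (m : ℂ) := by rw [hm]; push_cast; ring
  rw [← this, hZ]
  split_ifs <;> push_cast <;> ring


theorem m0_ne_top {a : ℕ → ℤ} (ha1 : a 1 = 1)
    (f₀ : CuspForm (Gamma0 N) 2) (af : ℕ → ℤ) (haf : ∀ n, (af n : ℂ) = qCoeff f₀ n)
    (hcong : ∀ n, (3 : ℤ) ∣ af n - (bridgeProduct a).coeff n) : m0 f₀ ≠ ⊤ := by
  intro htop
  have h1 : (1 : HA N) ∈ m0 f₀ := htop ▸ Submodule.mem_top
  rw [mem_m0, map_one] at h1
  obtain ⟨m, hm⟩ := h1 1
  rw [Module.End.one_apply, ← haf] at hm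
  have hm' : af 1 = 3 * m := by exact_mod_cast hm
  have h2 := hcong 1
  have h3 := bridgeProduct_coeff a 1
  rw [ha1] at h3
  omega

theorem three_mem_m0 (f₀ : CuspForm (Gamma0 N) 2) (af : ℕ → ℤ) (haf : ∀ n, (af n : ℂ) = qCoeff f₀ n) :
    ((3 : ℕ) : HA N) ∈ m0 f₀ := by
  rw [mem_m0]
  intro n
  refine ⟨af n, ?_⟩
  rw [map_natCast, Module.End.natCast_apply, haf]
  have : ((3 : ℕ) • f₀ : CuspForm (Gamma0 N) 2) = (3 : ℂ) • f₀ := by
    rw [← Nat.cast_smul_eq_nsmul ℂ]; norm_num
  rw [this, qCoeff_smul]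

end Hecke

theorem result
    {N : ℕ} [NeZero N] (h : CuspForm.HasIntegralBasis N) {a : ℕ → ℤ}
    (heig : FormalHecke.IsEigensystem
      (fun ℓ => if ℓ ∣ N then 0 else ((chiNegThree ℓ : ℤ) : ℤ)) a)
    (hreal : CuspForm.IsLatticeRealized N a) :
    ∃ (f : CuspForm (Gamma0 N) 2) (_ : f.IsNormalizedEigenform)
      (𝔪' : Ideal (integralClosure ℤ ℂ)), 𝔪'.IsMaximal ∧
      ((3 : ℕ) : integralClosure ℤ ℂ) ∈ 𝔪' ∧
      ∀ (ℓ : ℕ) (_ : ℓ.Prime) (_ : ¬ ℓ ∣ N),
        ∃ c : integralClosure ℤ ℂ, (c : ℂ) = ModularFormClass.qCoeff f ℓ ∧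
          c - (a ℓ : integralClosure ℤ ℂ) ∈ 𝔪' := by
  classical
  have : FiniteDimensional ℂ (CuspForm (Gamma0 N) 2) := finiteDimensional_of_hasIntegralBasis h
  obtain ⟨f₀, -, af, haf, hcong⟩ := hreal
  -- the maximal ideal of the Hecke algebra
  obtain ⟨𝔫, h𝔫max, hle⟩ := Ideal.exists_le_maximal (m0 f₀) (m0_ne_top heig.1 f₀ af haf hcong)
  have : 𝔫.IsPrime := h𝔫max.isPrime
  -- the eigenvector
  obtain ⟨w, θ, hw, hθ, hθker⟩ := exists_eigenchar_of_prime (rho (N := N)) 𝔫
    (fun t ht => by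
      have : t = 0 := Subtype.ext ht
      rw [this]; exact 𝔫.zero_mem)
  -- the normalized eigenform
  set τ : ℕ → ℂ := fun p =>
    if hp : p.Prime then (if hpN : p ∣ N then θ (UU hp hpN) else θ (TT hp hpN)) else 0 with hτ
  obtain ⟨f, hf, hfp⟩ := exists_normalized w hw τ
    (fun p hp hpN => by
      have := hθ (TT hp hpN)
      rw [rho_TT] at this
      rw [this, hτ]
      simp only [dif_pos hp, dif_neg hpN])
    (fun p hp hpN => by
      have := hθ (UU hp hpN)
      rw [rho_UU] at this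
      rw [this, hτ]
      simp only [dif_pos hp, dif_pos hpN])
  -- integrality
  have hint : ∀ t, θ t ∈ integralClosure ℤ ℂ := fun t => isIntegral_of_ringHom h θ t
  set θ' : HA N →+* integralClosure ℤ ℂ := θ.codRestrict (integralClosure ℤ ℂ) hint with hθ'
  have hθ'coe : ∀ t, ((θ' t : integralClosure ℤ ℂ) : ℂ) = θ t := fun t => rfl
  have hkerle : RingHom.ker θ' ≤ 𝔫 := by
    intro t ht
    apply hθker
    rw [RingHom.mem_ker] at ht
    rw [← hθ'coe, ht]
    rfl
  have hθ'int : θ'.IsIntegral := by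
    apply RingHom.IsIntegral.tower_top (Int.castRingHom (HA N)) θ'
    have hcomp : θ'.comp (Int.castRingHom (HA N)) = algebraMap ℤ (integralClosure ℤ ℂ) :=
      Subsingleton.elim _ _
    rw [hcomp]
    exact algebraMap_isIntegral_iff.mpr inferInstance
  have hmapne : 𝔫.map θ' ≠ ⊤ := by
    rw [Ne, Ideal.map_eq_top_iff_of_ker_le θ' hkerle hθ'int]
    exact h𝔫max.ne_top
  obtain ⟨𝔪', h𝔪'max, h𝔪'le⟩ := Ideal.exists_le_maximal _ hmapne
  have hmem : ∀ t ∈ m0 f₀, θ' t ∈ 𝔪' := fun t ht =>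
    h𝔪'le (Ideal.mem_map_of_mem θ' (hle ht))
  refine ⟨f, hf, 𝔪', h𝔪'max, ?_, ?_⟩
  · have := hmem _ (three_mem_m0 f₀ af haf)
    rwa [map_natCast] at this
  · intro ℓ hℓ hℓN
    refine ⟨θ' (TT hℓ hℓN), ?_, ?_⟩
    · rw [hθ'coe, hfp ℓ hℓ, hτ]
      simp only [dif_pos hℓ, dif_neg hℓN]
    · have := hmem _ (TT_sub_mem_m0 heig f₀ af haf hcong hℓ hℓN)
      rwa [map_sub, map_intCast] at this

end Fermat.Agent.S49
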