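-- Statement S02: a counterexample to FLT for a prime p ≥ 5 yields a Frey package.
import Fermat.Statements.S02

set_option autoImplicit false
open FreyPackage

namespace Fermat.Agent.S02

/-- Coprime case, with `b` already even. -/
theorem aux_mk (a b c : ℤ) (ha : a ≠ 0) (hb : b ≠ 0) (hc : c ≠ 0) (p : ℕ) (pp : p.Prime)
    (hp5 : 5 ≤ p) (H : a ^ p + b ^ p = c ^ p) (hab : gcd a b = 1) (hb2 : (2 : ℤ) ∣ b) :
    Nonempty FreyPackage := by
  have ha_odd : ¬ (2 : ℤ) ∣ a := by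
    intro h2a
    have h2 : (2 : ℤ) ∣ gcd a b := dvd_gcd h2a hb2
    rw [hab] at h2
    norm_num at h2
  have hpodd : Odd p := pp.odd_of_ne_two (by omega)
  have hcases : a % 4 = 3 ∨ a % 4 = 1 := by omega
  rcases hcases with h3 | h1
  · refine ⟨⟨a, b, c, ha, hb, hc, p, pp, hp5, H, hab, ?_, ?_⟩⟩
    · have : (a : ZMod 4) = ((3 : ℤ) : ZMod 4) := by
        rw [ZMod.intCast_eq_intCast_iff_dvd_sub]
        omega
      simpa using this
    · exact (ZMod.intCast_zmod_eq_zero_iff_dvd b 2).2 hb2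
  · refine ⟨⟨-a, -b, -c, neg_ne_zero.2 ha, neg_ne_zero.2 hb, neg_ne_zero.2 hc, p, pp, hp5,
      ?_, ?_, ?_, ?_⟩⟩
    · rw [hpodd.neg_pow, hpodd.neg_pow, hpodd.neg_pow, ← H]; ring
    · rw [gcd_neg, neg_gcd]; exact hab
    · have : ((-a : ℤ) : ZMod 4) = ((3 : ℤ) : ZMod 4) := by
        rw [ZMod.intCast_eq_intCast_iff_dvd_sub]
        omega
      simpa using this
    · exact (ZMod.intCast_zmod_eq_zero_iff_dvd (-b) 2).2 (by simpa using hb2)

/-- Coprime case. -/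
theorem aux_coprime (a b c : ℤ) (ha : a ≠ 0) (hb : b ≠ 0) (hc : c ≠ 0) (p : ℕ) (pp : p.Prime)
    (hp5 : 5 ≤ p) (H : a ^ p + b ^ p = c ^ p) (hab : gcd a b = 1) :
    Nonempty FreyPackage := by
  have hpodd : Odd p := pp.odd_of_ne_two (by omega)
  have hppos : 0 < p := by omega
  by_cases hb2 : (2 : ℤ) ∣ b
  · exact aux_mk a b c ha hb hc p pp hp5 H hab hb2
  by_cases ha2 : (2 : ℤ) ∣ a
  · refine aux_mk b a c hb ha hc p pp hp5 (by rw [add_comm]; exact H) ?_ ha2
    rw [gcd_comm]; exact hab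
  -- both odd, so c is even
  have hc2 : (2 : ℤ) ∣ c := by
    have h2 : Prime (2 : ℤ) := Int.prime_two
    have hao : Odd (a ^ p) := (Int.not_even_iff_odd.1 (fun h => ha2 h.two_dvd)).pow
    have hbo : Odd (b ^ p) := (Int.not_even_iff_odd.1 (fun h => hb2 h.two_dvd)).pow
    have hce : Even (c ^ p) := by rw [← H]; exact hao.add_odd hbo
    exact h2.dvd_of_dvd_pow hce.two_dvd
  have hac : gcd a c = 1 := by rw [← gcdab_eq_gcdac hppos H, hab]
  refine aux_mk a (-c) (-b) ha (neg_ne_zero.2 hc) (neg_ne_zero.2 hb) p pp hp5 ?_ ?_ ?_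
  · rw [hpodd.neg_pow, hpodd.neg_pow, ← H]; ring
  · rw [gcd_neg]; exact hac
  · simpa using hc2

theorem result (a b c : ℤ) (ha : a ≠ 0) (hb : b ≠ 0) (hc : c ≠ 0) (p : ℕ) (pp : p.Prime) (hp5 : 5 ≤ p) (H : a ^ p + b ^ p = c ^ p) : Nonempty FreyPackage := by
  have hppos : 0 < p := by omega
  -- divide out by the gcd
  obtain ⟨a', b', ha', hb', hu⟩ := extract_gcd a b
  have hcop : gcd a' b' = 1 := by
    rw [← normalize_gcd a' b']
    exact normalize_eq_one.2 hu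
  set d : ℤ := gcd a b with hd
  have hd0 : d ≠ 0 := by
    intro h0
    rw [h0, zero_mul] at ha'
    exact ha ha'
  have ha'0 : a' ≠ 0 := by
    rintro rfl
    rw [mul_zero] at ha'
    exact ha ha'
  have hb'0 : b' ≠ 0 := by
    rintro rfl
    rw [mul_zero] at hb'
    exact hb hb'
  have hdc : d ∣ c := by
    rw [← Int.pow_dvd_pow_iff hppos.ne', ← H]
    apply dvd_add <;> rw [Int.pow_dvd_pow_iff hppos.ne']
    · exact gcd_dvd_left a b
    · exact gcd_dvd_right a b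
  obtain ⟨c', hc'⟩ := hdc
  have hc'0 : c' ≠ 0 := by
    rintro rfl
    rw [mul_zero] at hc'
    exact hc hc'
  have H' : a' ^ p + b' ^ p = c' ^ p := by
    have hdp : d ^ p ≠ 0 := pow_ne_zero _ hd0
    apply mul_left_cancel₀ hdp
    rw [mul_add, ← mul_pow, ← mul_pow, ← mul_pow, ← ha', ← hb', ← hc']
    exact H
  exact aux_coprime a' b' c' ha'0 hb'0 hc'0 p pp hp5 H' hcop

end Fermat.Agent.S02
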