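-- Statement S07 (row 7): every weight-2 cusp form of level Gamma0(2) is zero.
-- Proof: the Sturm bound for Gamma0(N) from the prelude, the bound index(Gamma0(2)) <= 4,
-- and the vanishing of the constant q-expansion coefficient of a cusp form.
import Fermat.Statements.S07
import Fermat.Prelude.Thm_ModularForm_sturm_bound_Gamma0
import Fermat.Prelude.Thm_CongruenceSubgroup_one_mem_strictPeriods_Gamma0

set_option autoImplicit false
open WeierstrassCurve WeierstrassCurve.Affine WeierstrassCurve.Affine.Point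
open CuspForm ModularFormClass UpperHalfPlane
open ModularForm

namespace Fermat.Agent.S07

open scoped MatrixGroups

/-- View a cusp form as a modular form. -/
def cuspToModular {Γ : Subgroup (GL (Fin 2) ℝ)} {k : ℤ} (f : CuspForm Γ k) : ModularForm Γ k where
  toSlashInvariantForm := f.toSlashInvariantForm
  holo' := f.holo'
  bdd_at_cusps' := fun hc g hg => (f.zero_at_cusps' hc g hg).boundedAtFilter

theorem cuspToModular_coe {Γ : Subgroup (GL (Fin 2) ℝ)} {k : ℤ} (f : CuspForm Γ k) :
    (⇑(cuspToModular f) : ℍ → ℂ) = ⇑f := rfl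

/-- The first column mod `N`: for `N = 2` a complete invariant of left cosets of `Gamma0 2`. -/
def colMod (N : ℕ) (g : SL(2, ℤ)) : ZMod N × ZMod N := ((g 0 0 : ℤ), (g 1 0 : ℤ))

theorem inv_mul_one_zero (a b : SL(2, ℤ)) :
    (a⁻¹ * b) 1 0 = - a 1 0 * b 0 0 + a 0 0 * b 1 0 := by
  rw [Matrix.SpecialLinearGroup.coe_mul, Matrix.SpecialLinearGroup.coe_inv,
    Matrix.adjugate_fin_two, Matrix.mul_apply, Fin.sum_univ_two]
  simp

theorem det_cast (N : ℕ) (a : SL(2, ℤ)) :
    ((a 0 0 : ℤ) : ZMod N) * ((a 1 1 : ℤ) : ZMod N)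
      - ((a 0 1 : ℤ) : ZMod N) * ((a 1 0 : ℤ) : ZMod N) = 1 := by
  have h := a.det_coe
  rw [Matrix.det_fin_two] at h
  have := congrArg (Int.cast : ℤ → ZMod N) h
  push_cast at this
  exact this

theorem aux2 : ∀ a00 a01 a10 a11 b00 b01 b10 b11 : ZMod 2,
    a00 * a11 - a01 * a10 = 1 → b00 * b11 - b01 * b10 = 1 → -a10 * b00 + a00 * b10 = 0 →
    a00 = b00 ∧ a10 = b10 := by decide

theorem colMod_eq_of_rel (a b : SL(2, ℤ))
    (hab : QuotientGroup.leftRel (CongruenceSubgroup.Gamma0 2) a b) :
    colMod 2 a = colMod 2 b := by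
  rw [QuotientGroup.leftRel_apply, CongruenceSubgroup.Gamma0_mem, inv_mul_one_zero] at hab
  push_cast at hab
  obtain ⟨h1, h2⟩ := aux2 _ _ _ _ _ _ _ _ (det_cast 2 a) (det_cast 2 b) hab
  exact Prod.ext h1 h2

theorem rel_of_colMod_eq (a b : SL(2, ℤ)) (h : colMod 2 a = colMod 2 b) :
    QuotientGroup.leftRel (CongruenceSubgroup.Gamma0 2) a b := by
  rw [QuotientGroup.leftRel_apply, CongruenceSubgroup.Gamma0_mem, inv_mul_one_zero]
  have h1 : ((a 0 0 : ℤ) : ZMod 2) = ((b 0 0 : ℤ) : ZMod 2) := congrArg Prod.fst h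
  have h2 : ((a 1 0 : ℤ) : ZMod 2) = ((b 1 0 : ℤ) : ZMod 2) := congrArg Prod.snd h
  push_cast
  rw [h1, h2]
  ring

theorem index_Gamma0_two_le : (CongruenceSubgroup.Gamma0 2).index ≤ 4 := by
  classical
  have hinj : Function.Injective
      (Quotient.lift (s := QuotientGroup.leftRel (CongruenceSubgroup.Gamma0 2)) (colMod 2)
        colMod_eq_of_rel) := by
    intro x y
    induction x using Quotient.inductionOn
    induction y using Quotient.inductionOn
    intro h
    exact Quotient.sound (rel_of_colMod_eq _ _ h)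
  have := Nat.card_le_card_of_injective _ hinj
  have h4 : Nat.card (ZMod 2 × ZMod 2) = 4 := by simp
  rw [h4] at this
  exact this

theorem result (f : CuspForm (CongruenceSubgroup.Gamma0 2) 2) : f = 0 := by
  have hidx : (CongruenceSubgroup.Gamma0 2).index ≤ 4 := index_Gamma0_two_le
  have h0 : cuspToModular f = 0 := by
    apply ModularForm.sturm_bound_Gamma0 2 (cuspToModular f)
    intro n hn
    have hn0 : n = 0 := by
      have : ((2 : ℤ) * ((CongruenceSubgroup.Gamma0 2).index : ℤ)).toNat / 12 = 0 := by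
        omega
      omega
    subst hn0
    rw [cuspToModular_coe]
    exact CuspFormClass.qExpansion_coeff_zero f one_pos
      (CongruenceSubgroup.one_mem_strictPeriods_Gamma0 2)
  ext z
  have h1 : cuspToModular f z = 0 := by rw [h0]; rfl
  exact h1

end Fermat.Agent.S07
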