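-- Statement S08 (row 7): every weight-2 cusp form of level Gamma0(1) is zero.
-- Proof: the Sturm bound for Gamma0(N) from the prelude, index(Gamma0(1)) = 1,
-- and the vanishing of the constant q-expansion coefficient of a cusp form.
import Fermat.Statements.S08
import Fermat.Prelude.Thm_ModularForm_sturm_bound_Gamma0
import Fermat.Prelude.Thm_CongruenceSubgroup_one_mem_strictPeriods_Gamma0

set_option autoImplicit false
open WeierstrassCurve WeierstrassCurve.Affine WeierstrassCurve.Affine.Point
open CuspForm ModularFormClass UpperHalfPlane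
open ModularForm

namespace Fermat.Agent.S08

open scoped MatrixGroups

/-- View a cusp form as a modular form. -/
def cuspToModular {Γ : Subgroup (GL (Fin 2) ℝ)} {k : ℤ} (f : CuspForm Γ k) : ModularForm Γ k where
  toSlashInvariantForm := f.toSlashInvariantForm
  holo' := f.holo'
  bdd_at_cusps' := fun hc g hg => (f.zero_at_cusps' hc g hg).boundedAtFilter

theorem cuspToModular_coe {Γ : Subgroup (GL (Fin 2) ℝ)} {k : ℤ} (f : CuspForm Γ k) :
    (⇑(cuspToModular f) : ℍ → ℂ) = ⇑f := rfl

theorem Gamma0_one_eq_top : CongruenceSubgroup.Gamma0 1 = ⊤ := by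
  ext A
  simp only [CongruenceSubgroup.Gamma0_mem, Subgroup.mem_top, iff_true]
  exact Subsingleton.elim _ _

theorem index_Gamma0_one : (CongruenceSubgroup.Gamma0 1).index = 1 := by
  rw [Gamma0_one_eq_top, Subgroup.index_top]

theorem result (f : CuspForm (CongruenceSubgroup.Gamma0 1) 2) : f = 0 := by
  have hidx : (CongruenceSubgroup.Gamma0 1).index = 1 := index_Gamma0_one
  have h0 : cuspToModular f = 0 := by
    apply ModularForm.sturm_bound_Gamma0 1 (cuspToModular f)
    intro n hn
    have hn0 : n = 0 := by
      have : ((2 : ℤ) * ((CongruenceSubgroup.Gamma0 1).index : ℤ)).toNat / 12 = 0 := by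
        omega
      omega
    subst hn0
    rw [cuspToModular_coe]
    exact CuspFormClass.qExpansion_coeff_zero f one_pos
      (CongruenceSubgroup.one_mem_strictPeriods_Gamma0 1)
  ext z
  have h1 : cuspToModular f z = 0 := by rw [h0]; rfl
  exact h1

end Fermat.Agent.S08
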