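-- Statement S10 (row 9): the mod-p representation of the Frey curve has no Galois-stable cofixed
-- line when p ∈ {5, 7, 13}.  Proof: there is no Frey package with such a prime, by Kummer's theorem
-- (Fermat's Last Theorem for the exponents 5, 7, 13, for which ℤ[ζ_p] is a PID).
import Fermat.Statements.S10
import Fermat.Agent.Lib.Kummer.KLAssembly

set_option autoImplicit false
open WeierstrassCurve WeierstrassCurve.Affine WeierstrassCurve.Affine.Point
open CuspForm ModularFormClass UpperHalfPlane
open FreyPackage

namespace Fermat.Agent.S10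

theorem result (P : FreyPackage) (hp : P.p = 5 ∨ P.p = 7 ∨ P.p = 13) : ¬ HasGaloisStableCofixedLine (K := AlgebraicClosure ℚ) ℚ P.freyCurve P.p := by
  exfalso
  apply Fermat.Agent.Lib.Kummer.false_of_freyPackage P
  rcases hp with h | h | h <;> rw [h]
  exacts [Fermat.Agent.Lib.Kummer.flt_five, Fermat.Agent.Lib.Kummer.flt_seven,
    Fermat.Agent.Lib.Kummer.flt_thirteen]

end Fermat.Agent.S10
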