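-- Statement S11 (row 10): the mod-p representation of the Frey curve has no Galois-stable cofixed
-- line when p = 11.  Proof: there is no Frey package with p = 11, by Kummer's theorem
-- (Fermat's Last Theorem for the exponent 11, for which ℤ[ζ_11] is a PID).
import Fermat.Statements.S11
import Fermat.Agent.Lib.Kummer.KLAssembly

set_option autoImplicit false
open WeierstrassCurve WeierstrassCurve.Affine WeierstrassCurve.Affine.Point
open CuspForm ModularFormClass UpperHalfPlane
open FreyPackage

namespace Fermat.Agent.S11

theorem result (P : FreyPackage) (hp : P.p = 11) : ¬ HasGaloisStableCofixedLine (K := AlgebraicClosure ℚ) ℚ P.freyCurve P.p := by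
  exfalso
  apply Fermat.Agent.Lib.Kummer.false_of_freyPackage P
  rw [hp]
  exact Fermat.Agent.Lib.Kummer.flt_eleven

end Fermat.Agent.S11
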