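-- Statement S13: `FreyPackage.frey_reducible_hasCofixedLine`.
import Fermat.Statements.S13
import Fermat.Agent.Lib.S13.Final
import Fermat.Agent.Lib.S13.TwoBridge
import Fermat.Agent.Lib.S13.EFinal

set_option autoImplicit false
open WeierstrassCurve WeierstrassCurve.Affine WeierstrassCurve.Affine.Point
open CuspForm ModularFormClass UpperHalfPlane
open FreyPackage

namespace Fermat.Agent.S13

theorem result (P : FreyPackage) (hred : ¬ GaloisRepIsIrreducible (K := AlgebraicClosure ℚ) ℚ P.freyCurve P.p) : HasGaloisStableCofixedLine (K := AlgebraicClosure ℚ) ℚ P.freyCurve P.p :=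
  Fermat.Agent.Lib.S13.lead_s13_of_D_E Fermat.Agent.Lib.S13.h6_unipotentAtTwo
    Fermat.Agent.Lib.S13.h2_noFixedPoint Fermat.Agent.Lib.S13.h8_localAtP P hred

end Fermat.Agent.S13
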