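import Fermat.Statements.S14
import Fermat.Agent.Lib.S14.BridgeNF
import Fermat.Agent.Lib.S14.NTFinal
import Fermat.Agent.Lib.S14.Cross6Main
import Fermat.Agent.Lib.S14.BFinal4

set_option autoImplicit false
open ExtCitation

namespace Fermat.Agent.S14

theorem result {p : ℕ} [Fact p.Prime] (h3 : 3 ≤ p) :
    ExtCitation.ExtVanishingCts p :=
  Fermat.Agent.Lib.S14.h5b_s14_of_NT
    (Fermat.Agent.Lib.S14.h4n_NT Fermat.Agent.Lib.S14.h6c_crossStatement
      Fermat.Agent.Lib.S14.h4x_BStatement) h3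

end Fermat.Agent.S14
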