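-- Statement S16 (row 15): Mazur's index formula for the Eisenstein ideal,
-- |T / I| = (p - 1) / gcd (p - 1, 12).
import Fermat.Statements.S16
import Fermat.Agent.Lib.S16.H3Final2
import Fermat.Agent.Lib.S16.H8Cases
import Fermat.Agent.Lib.S16.H7Sturm1
import Fermat.Agent.Lib.S16.H7Ring
import Fermat.Agent.Lib.S16.H5EisLevel
import Fermat.Agent.Lib.S16.H1TraceContract

set_option autoImplicit false
open ModularCurve CuspForm
open ModularCurve

namespace Fermat.Agent.S16

open Fermat.Agent.Lib.S16 in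
theorem result
    (p : ℕ) [Fact p.Prime] :
    Nat.card (↥(heckeLatticeAlgebra p ∅) ⧸
        Ideal.map ((latticeRestrictHom p ∅).toRingHom.comp (heckeEvalForms p 2))
          (eisensteinIdeal p)) =
      eisensteinNumerator p := by
  have hp : p.Prime := Fact.out
  have hT : TraceId p := h1t_traceId_contract hp
  have hE2 : EisLevel 2 := h5e_eisLevel 2 Nat.prime_two
  have hE3 : EisLevel 3 := h5e_eisLevel 3 Nat.prime_three
  refine h3_s16_of_abc p ?_ ?_ ?_
  · intro h7 ℓ hℓ h5 hℓp
    exact h8c_caseA hp (by omega) hE2 hT h7s_sturmOne h7g_coeffRing hℓ h5 hℓp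
  · intro h7 h3
    exact h8c_caseB hp (by omega) hE2 hT h7s_sturmOne h7g_coeffRing h3
  · intro h7 h4
    exact h8c_caseC hp (by omega) hE3 hT h7s_sturmOne h7g_coeffRing h4

end Fermat.Agent.S16
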