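-- Statement S24 (row 23): the genus of the function field of X₀(N) over ℚ̄ equals the classical
-- genus formula.  Team proof (project X0, Fermat/Agent/Lib/X0): Riemann–Hurwitz for F_N / ℚ̄(j)
-- via the embedding count theorem and analytic local expansions.
import Fermat.Statements.S24
import Fermat.Agent.Lib.X0.Assembly
import Fermat.Agent.Lib.X0.PlacesProof
import Fermat.Agent.Lib.X0.EmbCountCor
import Fermat.Agent.Lib.X0.DictFG
import Fermat.Agent.Lib.X0.CoordFinal
import Fermat.Agent.Lib.X0.CFiniteFinal
import Fermat.Agent.Lib.X0.CInftyCusp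
import Fermat.Agent.Lib.X0.Comb

set_option autoImplicit false
open ModularCurve

namespace Fermat.Agent.S24

open Fermat.Agent.Lib.X0 in
theorem result (N : ℕ) [NeZero N]
    [AlgebraicCurve.HasCanonicalDivisor (K := AlgebraicClosure ℚ) (F := ↥(ModularCurve.modularFunctionFieldBar N))] :
    (AlgebraicCurve.genus (AlgebraicClosure ℚ) ↥(ModularCurve.modularFunctionFieldBar N) : ℚ)
      = ModularCurve.genusFormula N :=
  s24_of_contracts N h4_places h7_embCountCor h4_differential (h2_coordStatement N)
    (h9_cFinite N) (h5_cInfty N) (h8_combStatement N)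

end Fermat.Agent.S24
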