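-- Statement S51 (row 45): for a semistable integral Weierstrass curve, at least one of the mod-3 and
-- mod-5 representations is irreducible.  Proof: otherwise the curve has a rational 15-isogeny; the
-- x-coordinates of the kernel give a rational point on X₀(15) : y² = x(x-16)(x+9), whose eight
-- rational points force j ∈ {-25/2, -349938025/8, -121945/32, 46969655/32768}, impossible for a
-- semistable model (5-adic valuation of j).  See Fermat/Agent/Lib/S51/.
import Fermat.Statements.S51
import Fermat.Agent.Lib.S51.Assembly
import Fermat.Agent.Lib.S51.KeyIdentity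
import Fermat.Agent.Lib.S51.EndgameProof
import Fermat.Agent.Lib.S51.ExtractionProof
import Fermat.Agent.Lib.S51.Descent

set_option autoImplicit false
open WeierstrassCurve WeierstrassCurve.Affine WeierstrassCurve.Affine.Point
open CuspForm ModularFormClass UpperHalfPlane
open WeierstrassCurve

namespace Fermat.Agent.S51

theorem result (W : WeierstrassCurve ℤ) (hΔ : W.Δ ≠ 0) (hW : W.IsSemistableModel) : W.ModRepIsIrreducible 3 ∨ W.ModRepIsIrreducible 5 := by
  exact Fermat.Agent.Lib.S51.s51_of_pieces Fermat.Agent.Lib.S51.rational_points_15a1
    Fermat.Agent.Lib.S51.keyIdentity Fermat.Agent.Lib.S51.endgame_holds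
    Fermat.Agent.Lib.S51.extraction_holds W hΔ hW

end Fermat.Agent.S51
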