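-- Statement S53: existence of the universal deformation ring (Mazur; rigidified-lift construction).
-- Team proof: helper2 (Defs, Frame, Tangent), helper4 (assembly, RNF wrapper, bridge, EvalNilp),
-- helper5 (pro-limit, UnivRing), helper6 (dictionary, tangent finiteness, residue),
-- helper7 (normal form, power series), helper9 (family U), lead (compactness).
import Fermat.Statements.S53
import Fermat.Agent.Lib.S53.Frame
import Fermat.Agent.Lib.S53.UnivRing
import Fermat.Agent.Lib.Helper4.S53Bridge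

set_option autoImplicit false
open GaloisRep

namespace Fermat.Agent.S53

theorem result
    (𝒪 : Type) [CommRing 𝒪] [IsDomain 𝒪] [IsDiscreteValuationRing 𝒪]
    [IsAdicComplete (IsLocalRing.maximalIdeal 𝒪) 𝒪] [Finite (IsLocalRing.ResidueField 𝒪)]
    (ρbar : ResidualGaloisRep (IsLocalRing.ResidueField 𝒪))
    (𝒟 : ∀ ⦃A : Type⦄ [CommRing A] [IsLocalRing A] [Algebra 𝒪 A], GaloisRepAdic A → Prop)
    (habs : ρbar.IsAbsolutelyIrreducible)
    (h𝒟 : GaloisRep.IsDeformationCondition 𝒪 𝒟)
    (hbar : 𝒟 (GaloisRepAdic.ofResidualGaloisRep ρbar))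
    (hfin : GaloisRep.TangentFinite 𝒪 ρbar 𝒟) :
    Nonempty (GaloisRep.DeformationRingData 𝒪 ρbar 𝒟) := by
  obtain ⟨F⟩ := Fermat.Agent.Lib.S53.exists_frame ρbar habs
  obtain ⟨D⟩ := Fermat.Agent.Lib.S53.nonempty_proLimitData_inU_of_tangentFinite F habs h𝒟 hbar hfin
  exact Fermat.Agent.Lib.Helper4.S53.nonempty_deformationRingData_of_proLimitData F habs h𝒟 D

end Fermat.Agent.S53
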