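import Fermat.Statements.S57
import Fermat.Agent.Lib.Helper5.RegularFree
import Fermat.Agent.Lib.Helper5.PowerSeriesRegular

set_option autoImplicit false
open Algebra Algebra.PatchingLevel

namespace Fermat.Agent.S57

open IsLocalRing RingTheory.Sequence Fermat.Agent.Lib.Helper5

section

variable {𝒪 : Type} [CommRing 𝒪]
    {r : ℕ} {R : Type} [CommRing R] [Algebra 𝒪 R]
    {M : Type} [AddCommGroup M] [Module R M]
    (L : Algebra.PatchingLevel 𝒪 r R M ⊥)

local notation "Λ" => MvPowerSeries (Fin r) 𝒪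

/-- The additive map `c ↦ ∑ φ(c i) • b i`. -/
noncomputable def comb : (Fin L.d → Λ) →+ L.N where
  toFun c := ∑ i, L.φ (c i) • L.b i
  map_zero' := by simp
  map_add' c c' := by simp [add_smul, Finset.sum_add_distrib]

theorem comb_apply (c : Fin L.d → Λ) : comb L c = ∑ i, L.φ (c i) • L.b i := rfl

theorem comb_smul (f : Λ) (c : Fin L.d → Λ) : comb L (f • c) = L.φ f • comb L c := by
  simp [comb_apply, Finset.smul_sum, mul_smul]

theorem comb_injective : Function.Injective (comb L) := by
  rw [injective_iff_map_eq_zero]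
  intro c hc
  have := (L.b_rel c).mp hc
  funext i
  simpa using this i

theorem comb_surjective : Function.Surjective (comb L) := by
  intro x
  obtain ⟨c, hc⟩ := L.b_span x
  exact ⟨c, hc.symm⟩

noncomputable def combEquiv : (Fin L.d → Λ) ≃+ L.N :=
  AddEquiv.ofBijective (comb L) ⟨comb_injective L, comb_surjective L⟩

theorem combEquiv_apply (c : Fin L.d → Λ) : combEquiv L c = comb L c := rfl

theorem finite_N : Module.Finite Λ L.N := by
  refine ⟨Submodule.fg_def.mpr ⟨Set.range L.b, Set.finite_range _, ?_⟩⟩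
  rw [_root_.eq_top_iff]
  intro x _
  obtain ⟨c, rfl⟩ := L.b_span x
  exact Submodule.sum_mem _ fun i _ =>
    Submodule.smul_mem _ _ (Submodule.subset_span ⟨i, rfl⟩)

theorem nontrivial_N [Nontrivial M] : Nontrivial L.N := by
  obtain ⟨m, hm⟩ := exists_ne (0 : M)
  obtain ⟨x, rfl⟩ := L.π_surjective m
  exact ⟨⟨x, 0, fun h => hm (by rw [h, map_zero])⟩⟩

/-- The ideal generated by the `φ (X i)`. -/
noncomputable def idealI : Ideal Λ :=
  Ideal.span (Set.range fun i : Fin r => L.φ (MvPowerSeries.X i))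

theorem phi_X_mem_maximalIdeal [IsLocalRing 𝒪] [Nontrivial M] (i : Fin r) :
    L.φ (MvPowerSeries.X i) ∈ maximalIdeal Λ := by
  rw [mem_maximalIdeal, mem_nonunits_iff]
  intro hu
  obtain ⟨m, hm⟩ := exists_ne (0 : M)
  obtain ⟨x, rfl⟩ := L.π_surjective m
  apply hm
  rw [L.ker_π]
  have htop : Ideal.span (Set.range fun i : Fin r => L.φ (MvPowerSeries.X i)) = ⊤ :=
    Ideal.eq_top_of_isUnit_mem _ (Ideal.subset_span ⟨i, rfl⟩) hu
  rw [htop, Submodule.top_smul]
  exact Submodule.mem_top

theorem phi_C (a : 𝒪) : L.φ (MvPowerSeries.C a) = MvPowerSeries.C a :=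
  L.φ.commutes a


theorem isWeaklyRegular_pi {A : Type} [CommRing A] (d : ℕ) {rs : List A}
    (h : IsWeaklyRegular A rs) : IsWeaklyRegular (Fin d → A) rs := by
  have h1 : IsWeaklyRegular (TensorProduct A (Fin d → A) A) rs := h.isWeaklyRegular_lTensor
  exact ((TensorProduct.rid A (Fin d → A)).isWeaklyRegular_congr rs).mp h1

theorem free_N [IsDomain 𝒪] [IsDiscreteValuationRing 𝒪] [Nontrivial M] :
    Module.Free Λ L.N := by
  obtain ⟨ϖ, hϖ⟩ := IsDiscreteValuationRing.exists_irreducible 𝒪
  have hmax : maximalIdeal 𝒪 ≤ Ideal.span {ϖ} := hϖ.maximalIdeal_eq.le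
  have hreg : IsSMulRegular 𝒪 ϖ := by
    intro a b hab
    exact mul_left_cancel₀ hϖ.ne_zero (by simpa using hab)
  obtain ⟨Lps, hlen, hwr, hform, hle⟩ :=
    exists_regular_generators_mvPowerSeries 𝒪 ϖ hreg hmax r
  have hfin : Module.Finite Λ L.N := finite_N L
  have hnt : Nontrivial L.N := nontrivial_N L
  -- transport the regular sequence to `N`
  have hwrN : IsWeaklyRegular L.N (Lps.map L.φ) := by
    refine (AddEquiv.isWeaklyRegular_congr (e := combEquiv L) ?_).mp
      (isWeaklyRegular_pi L.d hwr)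
    rw [List.forall₂_map_right_iff]
    exact List.forall₂_same.mpr fun s _ c => comb_smul L s c
  have hϖmem : MvPowerSeries.C ϖ ∈ maximalIdeal Λ := by
    rw [mem_maximalIdeal, mem_nonunits_iff, MvPowerSeries.isUnit_iff_constantCoeff]
    simpa using hϖ.not_isUnit
  have hmem : ∀ s ∈ Lps.map L.φ, s ∈ maximalIdeal Λ := by
    intro s hs
    obtain ⟨t, ht, rfl⟩ := List.mem_map.mp hs
    rcases hform t ht with rfl | ⟨i, rfl⟩
    · rw [phi_C]; exact hϖmem
    · exact phi_X_mem_maximalIdeal L i
  have hregN : IsRegular L.N (Lps.map L.φ) :=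
    IsRegular.of_isWeaklyRegular_of_mem_maximalIdeal L.N hmem hwrN
  -- generators of the maximal ideal
  have hmemL : ∀ s ∈ Lps, s ∈ maximalIdeal Λ := by
    intro t ht
    rcases hform t ht with rfl | ⟨i, rfl⟩
    · exact hϖmem
    · rw [mem_maximalIdeal, mem_nonunits_iff, MvPowerSeries.isUnit_iff_constantCoeff]
      simp
  let g : Fin (r + 1) → Λ := fun i => Lps.get (Fin.cast hlen.symm i)
  have hg : Ideal.span (Set.range g) = maximalIdeal Λ := by
    have hrange : Set.range g = {s | s ∈ Lps} := by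
      ext s
      constructor
      · rintro ⟨i, rfl⟩; exact List.get_mem _ _
      · intro hs
        obtain ⟨j, rfl⟩ := List.get_of_mem hs
        exact ⟨Fin.cast hlen j, by simp [g]⟩
    rw [hrange]
    apply le_antisymm
    · rw [Ideal.span_le]; exact fun s hs => hmemL s hs
    · exact hle
  exact free_of_isRegular_of_span_eq_maximalIdeal (r + 1) Λ L.N g hg (Lps.map L.φ)
    (by simp [hlen]) hmem hregN

theorem idealI_le_ker : idealI L ≤ RingHom.ker (L.ψ : Λ →+* R) := by
  rw [idealI, Ideal.span_le]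
  rintro _ ⟨i, rfl⟩
  exact L.ψ_φ_X i

theorem mem_idealI_smul_top_iff {ι : Type} (B : Module.Basis ι Λ L.N) (x : L.N) :
    x ∈ idealI L • (⊤ : Submodule Λ L.N) ↔ ∀ j, B.repr x j ∈ idealI L := by
  rw [← B.span_eq, Submodule.mem_ideal_smul_span_iff_exists_sum]
  constructor
  · rintro ⟨a, ha, rfl⟩ j
    have : (a.sum fun i c => c • B i) = Finsupp.linearCombination Λ B a := rfl
    rw [this, B.repr_linearCombination]
    exact ha j
  · intro h
    refine ⟨B.repr x, h, ?_⟩
    have : ((B.repr x).sum fun i c => c • B i) = Finsupp.linearCombination Λ B (B.repr x) := rfl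
    rw [this, B.linearCombination_repr]

theorem pi_eq_zero_iff (x : L.N) : L.π x = 0 ↔ x ∈ idealI L • (⊤ : Submodule Λ L.N) :=
  L.ker_π x

theorem pi_sum_smul {ι : Type} [Fintype ι] (f : ι → Λ) (v : ι → L.N) :
    L.π (∑ j, f j • v j) = ∑ j, L.ψ (f j) • L.π (v j) := by
  rw [map_sum]
  exact Finset.sum_congr rfl fun j _ => L.π_smul _ _

theorem final_of_free [Nontrivial M] (hfree : Module.Free Λ L.N) :
    Module.Free R M ∧ Module.annihilator R M = ⊥ ∧
      RingHom.ker L.ψ = Ideal.span (Set.range fun i : Fin r => L.φ (MvPowerSeries.X i)) := by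
  have hfin : Module.Finite Λ L.N := finite_N L
  have hnt : Nontrivial L.N := nontrivial_N L
  let ι := Module.Free.ChooseBasisIndex Λ L.N
  let B : Module.Basis ι Λ L.N := Module.Free.chooseBasis Λ L.N
  have : Fintype ι := inferInstance
  have hne : Nonempty ι := B.index_nonempty
  obtain ⟨j0⟩ := hne
  classical
  -- (3)
  have hker : RingHom.ker (L.ψ : Λ →+* R) = idealI L := by
    apply le_antisymm _ (idealI_le_ker L)
    intro f hf
    have h1 : L.π (f • B j0) = 0 := by
      have hf0 : L.ψ f = 0 := hf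
      rw [L.π_smul, hf0, zero_smul]
    have h2 := (mem_idealI_smul_top_iff L B _).mp ((pi_eq_zero_iff L _).mp h1) j0
    simpa using h2
  -- the images of the basis vectors
  let v : ι → M := fun j => L.π (B j)
  have hli : LinearIndependent R v := by
    rw [Fintype.linearIndependent_iff]
    intro g hg j
    choose f hf using fun j => L.ψ_surjective (g j)
    have h1 : L.π (∑ j, f j • B j) = 0 := by
      rw [pi_sum_smul]
      simpa [hf] using hg
    have h2 := (mem_idealI_smul_top_iff L B _).mp ((pi_eq_zero_iff L _).mp h1) j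
    have h3 : B.repr (∑ j, f j • B j) j = f j := by
      simp [map_sum, Finsupp.single_apply]
    rw [h3] at h2
    rw [← hf j]
    exact idealI_le_ker L h2
  have hsp : ⊤ ≤ Submodule.span R (Set.range v) := by
    intro m _
    obtain ⟨x, rfl⟩ := L.π_surjective m
    have hx : x = ∑ j, B.repr x j • B j := (B.sum_repr x).symm
    rw [hx, pi_sum_smul]
    exact Submodule.sum_mem _ fun j _ =>
      Submodule.smul_mem _ _ (Submodule.subset_span ⟨j, rfl⟩)
  refine ⟨Module.Free.of_basis (Module.Basis.mk hli hsp), ?_, hker⟩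
  -- (2)
  rw [_root_.eq_bot_iff]
  intro a ha
  obtain ⟨f, rfl⟩ := L.ψ_surjective a
  have h1 : L.π (f • B j0) = 0 := by
    rw [L.π_smul]
    exact Module.mem_annihilator.mp ha _
  have h2 := (mem_idealI_smul_top_iff L B _).mp ((pi_eq_zero_iff L _).mp h1) j0
  have h3 : f ∈ idealI L := by simpa using h2
  exact idealI_le_ker L h3

end

theorem result
    {𝒪 : Type} [CommRing 𝒪] [IsDomain 𝒪] [IsDiscreteValuationRing 𝒪]
    {r : ℕ} {R : Type} [CommRing R] [Algebra 𝒪 R]
    {M : Type} [AddCommGroup M] [Module R M] [Nontrivial M]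
    (L : Algebra.PatchingLevel 𝒪 r R M ⊥) :
    Module.Free R M ∧ Module.annihilator R M = ⊥ ∧
      RingHom.ker L.ψ = Ideal.span (Set.range fun i : Fin r => L.φ (MvPowerSeries.X i)) := by
  exact final_of_free L (free_N L)

end Fermat.Agent.S57
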